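/-
Programme I (S33, p-new half), design contract D-B3 (expansion layer), part (X2)/(X2') (helper5).
Mathlib-only commutative algebra on ONE finite level `R` (noetherian local ring whose maximal ideal
is `J + (u)`; node: `J = (ϖ, v)`, disc: `J = (ϖ)`).

* `prime_eq_of_le` : a prime `p ⊇ J` with `u ∉ p` EQUALS `J` (Nakayama).  Consequences: the vertical
  prime `p₂ ∋ ϖ, v` of a node level is `(ϖ, v)`; for every ring hom `ψ : R → E` and every prime `Q`
  of `E` containing `ψ J` but not `ψ u`, `Q.comap ψ = J` (`comap_eq_of_le`) — the expansion pulls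
  the vertical prime of the target back to the vertical prime of the level.
* `isUnit_map_of_notMem` : if `E` is local, `ψ J ⊆ 𝔪_E` and `ψ u` is a unit, then `ψ` maps the
  complement of `J` to units: `ψ` extends to the localisation `R_J` (the valuation ring of the
  component restricted to the level) — the map `O_v ∩ F_i → E` of the contract.
* `exists_pow_mul_sub_mem` : (X2') every `y ∉ J` is `u ^ n * s` modulo `J` with `s` a unit (the
  residue ring `R / J` is a discrete valuation ring with uniformizer `u`): Taylor order at the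
  branch.
* `map_eq_pow_mul_unit` : transfer of the valuation: `s * y = ϖ ^ n * z`, `s, z ∉ J` gives
  `ψ y = ψ ϖ ^ n * unit`.
-/
import Mathlib

set_option autoImplicit false

namespace Fermat.Agent.FF3.Expand

open IsLocalRing

variable {R : Type*} [CommRing R] [IsNoetherianRing R] [IsLocalRing R]

/-- **The vertical prime is `J`.**  In a noetherian local ring whose maximal ideal is contained in
`J + (u)` (`u` a non-unit), a prime containing `J` and not `u` equals `J`. -/
theorem prime_eq_of_le (J : Ideal R) (u : R) (hu𝔪 : u ∈ maximalIdeal R)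
    (hm : maximalIdeal R ≤ J ⊔ Ideal.span {u})
    (p : Ideal R) [hp : p.IsPrime] (hJ : J ≤ p) (hu : u ∉ p) : p = J := by
  refine le_antisymm ?_ hJ
  have hle : p ≤ J ⊔ Ideal.span {u} • p := by
    intro z hz
    have hz𝔪 : z ∈ maximalIdeal R := le_maximalIdeal hp.ne_top hz
    obtain ⟨j, hj, w, hw, rfl⟩ := Submodule.mem_sup.mp (hm hz𝔪)
    obtain ⟨b, rfl⟩ := Ideal.mem_span_singleton'.mp hw
    have hbu : b * u ∈ p := by
      have : b * u = (j + b * u) - j := by ring
      rw [this]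
      exact sub_mem hz (hJ hj)
    have hb : b ∈ p := (hp.mem_or_mem hbu).resolve_right hu
    refine Submodule.mem_sup.mpr ⟨j, hj, b * u, ?_, rfl⟩
    rw [mul_comm]
    exact Submodule.smul_mem_smul (Ideal.subset_span rfl) hb
  have hujac : Ideal.span {u} ≤ Ideal.jacobson ⊥ := by
    refine le_trans ?_ (maximalIdeal_le_jacobson ⊥)
    rw [Ideal.span_singleton_le_iff_mem]
    exact hu𝔪
  exact Submodule.le_of_le_smul_of_le_jacobson_bot (IsNoetherian.noetherian p) hujac hle

/-- The expansion pulls the vertical prime of the target back to the vertical prime of the level: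
for a ring hom `ψ : R → E` and a prime `Q` of `E` containing `ψ J` and not `ψ u`,
`Q.comap ψ = J`. -/
theorem comap_eq_of_le {E : Type*} [CommRing E] (ψ : R →+* E) (J : Ideal R) (u : R)
    (hu𝔪 : u ∈ maximalIdeal R) (hm : maximalIdeal R ≤ J ⊔ Ideal.span {u})
    (Q : Ideal E) [Q.IsPrime] (hJ : ∀ j ∈ J, ψ j ∈ Q) (hu : ψ u ∉ Q) : Q.comap ψ = J :=
  prime_eq_of_le J u hu𝔪 hm (Q.comap ψ) (fun j hj => Ideal.mem_comap.mpr (hJ j hj))
    (fun h => hu (Ideal.mem_comap.mp h))

/-- **`ψ` extends to the localisation at `J`**: if `E` is local, `ψ J ⊆ 𝔪_E` and `ψ u` is a unit,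
`ψ` maps the complement of `J` to units. -/
theorem isUnit_map_of_notMem {E : Type*} [CommRing E] [IsLocalRing E] (ψ : R →+* E) (J : Ideal R)
    (u : R) (hu𝔪 : u ∈ maximalIdeal R) (hm : maximalIdeal R ≤ J ⊔ Ideal.span {u})
    (hJ : ∀ j ∈ J, ψ j ∈ maximalIdeal E) (hu : IsUnit (ψ u)) {y : R} (hy : y ∉ J) :
    IsUnit (ψ y) := by
  by_contra hnu
  have h1 : (maximalIdeal E).comap ψ = J :=
    comap_eq_of_le ψ J u hu𝔪 hm (maximalIdeal E) hJ (fun h => (mem_maximalIdeal _).mp h hu)
  apply hy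
  rw [← h1]
  exact Ideal.mem_comap.mpr ((mem_maximalIdeal _).mpr hnu)

/-- `J` is prime as soon as SOME ring hom to a local ring sends `J` into the maximal ideal and `u`
to a unit. -/
theorem isPrime_of_map {E : Type*} [CommRing E] [IsLocalRing E] (ψ : R →+* E) (J : Ideal R)
    (u : R) (hu𝔪 : u ∈ maximalIdeal R) (hm : maximalIdeal R ≤ J ⊔ Ideal.span {u})
    (hJ : ∀ j ∈ J, ψ j ∈ maximalIdeal E) (hu : IsUnit (ψ u)) : J.IsPrime := by
  have h1 : (maximalIdeal E).comap ψ = J :=
    comap_eq_of_le ψ J u hu𝔪 hm (maximalIdeal E) hJ (fun h => (mem_maximalIdeal _).mp h hu)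
  rw [← h1]
  exact Ideal.comap_isPrime ψ _

/-- Krull: in a noetherian local ring an element of `J + 𝔪 ^ n` for all `n` lies in `J`. -/
theorem mem_of_forall_mem_sup_pow (J : Ideal R) {y : R}
    (h : ∀ n : ℕ, y ∈ J ⊔ maximalIdeal R ^ n) : y ∈ J := by
  have hK : (⨅ i : ℕ, maximalIdeal R ^ i • (⊤ : Submodule R (R ⧸ J))) = ⊥ :=
    Ideal.iInf_pow_smul_eq_bot_of_isLocalRing (maximalIdeal R) (Ideal.IsPrime.ne_top inferInstance)
  have hmem : Ideal.Quotient.mk J y ∈ (⨅ i : ℕ, maximalIdeal R ^ i • (⊤ : Submodule R (R ⧸ J))) := by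
    rw [Submodule.mem_iInf]
    intro n
    obtain ⟨a, ha, b, hb, rfl⟩ := Submodule.mem_sup.mp (h n)
    have e : Ideal.Quotient.mk J (a + b) = b • (Ideal.Quotient.mk J 1) := by
      rw [map_add, Ideal.Quotient.eq_zero_iff_mem.mpr ha, zero_add, Algebra.smul_def, map_one,
        mul_one]
      rfl
    rw [e]
    exact Submodule.smul_mem_smul hb Submodule.mem_top
  rw [hK, Submodule.mem_bot] at hmem
  exact Ideal.Quotient.eq_zero_iff_mem.mp hmem

/-- **(X2') Taylor order at the branch.**  Every `y ∉ J` is `u ^ n * s` modulo `J` with `s` a unit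
of `R`. -/
theorem exists_pow_mul_sub_mem (J : Ideal R) (u : R) (hu𝔪 : u ∈ maximalIdeal R)
    (hm : maximalIdeal R ≤ J ⊔ Ideal.span {u}) {y : R} (hy : y ∉ J) :
    ∃ (n : ℕ) (s : R), IsUnit s ∧ y - u ^ n * s ∈ J := by
  by_contra hcon
  push Not at hcon
  -- `y ≡ u ^ n * w_n` modulo `J` for every `n`
  have hstep : ∀ n : ℕ, ∃ w : R, y - u ^ n * w ∈ J := by
    intro n
    induction n with
    | zero => exact ⟨y, by simp⟩
    | succ n ih =>
      obtain ⟨w, hw⟩ := ih
      have hwnu : ¬ IsUnit w := fun h => hcon n w h hw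
      obtain ⟨j, hj, t, ht, hjt⟩ := Submodule.mem_sup.mp (hm ((mem_maximalIdeal w).mpr hwnu))
      obtain ⟨b, rfl⟩ := Ideal.mem_span_singleton'.mp ht
      refine ⟨b, ?_⟩
      have e : y - u ^ (n + 1) * b = (y - u ^ n * w) + u ^ n * j := by
        rw [← hjt]; ring
      rw [e]
      exact add_mem hw (Ideal.mul_mem_left _ _ hj)
  apply hy
  refine mem_of_forall_mem_sup_pow J fun n => ?_
  obtain ⟨w, hw⟩ := hstep n
  have e : y = (y - u ^ n * w) + u ^ n * w := by ring
  rw [e]
  exact Submodule.add_mem_sup hw (Ideal.mul_mem_right _ _ (Ideal.pow_mem_pow hu𝔪 n))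

omit [IsNoetherianRing R] [IsLocalRing R] in
/-- **Transfer of the valuation**: if `s * y = ϖ ^ n * z` with `s, z` mapped to units, then
`ψ y = ψ ϖ ^ n * unit`. -/
theorem map_eq_pow_mul_unit {E : Type*} [CommRing E] (ψ : R →+* E) {y s z ϖ : R} {n : ℕ}
    (hs : IsUnit (ψ s)) (hz : IsUnit (ψ z)) (h : s * y = ϖ ^ n * z) :
    ∃ ε : E, IsUnit ε ∧ ψ y = ψ ϖ ^ n * ε := by
  obtain ⟨si, hsi⟩ := hs.exists_left_inv
  refine ⟨si * ψ z, ?_, ?_⟩
  · exact (IsUnit.of_mul_eq_one (ψ s) hsi).mul hz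
  · have h1 : ψ s * ψ y = ψ ϖ ^ n * ψ z := by rw [← map_mul, h, map_mul, map_pow]
    calc ψ y = si * ψ s * ψ y := by rw [hsi, one_mul]
      _ = si * (ψ s * ψ y) := by ring
      _ = si * (ψ ϖ ^ n * ψ z) := by rw [h1]
      _ = ψ ϖ ^ n * (si * ψ z) := by ring

end Fermat.Agent.FF3.Expand
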