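/-
Programme I (S33, p-new half), design contract D-B3 (expansion layer), abstract core (helper5).
Mathlib-only.

**Abstract expansion theorem.**  `R` a commutative ring with a ring of constants `ι : W₀ → R`,
an element `ϖ : W₀` and a family `x : σ → R` such that `R = ι W₀ + 𝔪` for
`𝔪 := (ι ϖ, x s | s : σ)` (no local-ring, noetherian or relation hypothesis).  `B` a commutative
ring with `c : W₀ → B`, `X : σ → B`, complete for `I := (c ϖ, X s | s)` in the elementary sense
`complete`.  `Pt` a set of points with evaluations `ev P : R → Ω`, `evB P : B → Ω` into a normed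
field with ultrametric norm, bounded by `1`, compatible on the constants and on the coordinates,
with `‖ev P (ι ϖ)‖, ‖ev P (x s)‖ ≤ rad P < 1`, and such that the `evB P` separate the elements of
`B` (the identity theorem of the target ring).

Then there is a UNIQUE map `expand : R →+* B` with `evB P (expand y) = ev P y` for all `P`, `y`;
it is a ring homomorphism, `expand ∘ ι = c`, `expand (x s) = X s`, it maps `𝔪 ^ n` into `I ^ n`,
and it is injective as soon as the `ev P` separate the elements of `R`.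

Instances (not in this file): the node (`σ = Fin 2`, `x = (u, v')`, `B = W[[X,Y]]/(XY - π)`,
points = the places of the tube) and the disc (`σ = Unit`, `x = t`, `B = W[[T]]`).
-/
import Mathlib

set_option autoImplicit false

namespace Fermat.Agent.FF3.Expand

open MvPolynomial

/-! ### a ring homomorphism into an ultrametric normed field, bounded by one -/

section Ball

variable {S Ω : Type*} [CommRing S] [NormedField Ω] [IsUltrametricDist Ω]

/-- the ideal of the elements of `φ`-norm at most `r` (`φ` bounded by one, `0 ≤ r`) -/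
def ballIdeal (φ : S →+* Ω) (hφ : ∀ s, ‖φ s‖ ≤ 1) (r : ℝ) (hr : 0 ≤ r) : Ideal S where
  carrier := {z | ‖φ z‖ ≤ r}
  add_mem' := by
    intro a b ha hb
    show ‖φ (a + b)‖ ≤ r
    rw [map_add]
    exact (IsUltrametricDist.norm_add_le_max _ _).trans (max_le ha hb)
  zero_mem' := by
    show ‖φ 0‖ ≤ r
    rw [map_zero, norm_zero]
    exact hr
  smul_mem' := by
    intro s z hz
    show ‖φ (s • z)‖ ≤ r
    rw [smul_eq_mul, map_mul, norm_mul]
    calc ‖φ s‖ * ‖φ z‖ ≤ 1 * r := mul_le_mul (hφ s) hz (norm_nonneg _) zero_le_one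
      _ = r := one_mul r

theorem mem_ballIdeal {φ : S →+* Ω} {hφ : ∀ s, ‖φ s‖ ≤ 1} {r : ℝ} {hr : 0 ≤ r} {z : S} :
    z ∈ ballIdeal φ hφ r hr ↔ ‖φ z‖ ≤ r := Iff.rfl

/-- an element of the `n`-th power of an ideal generated by elements of norm at most `ρ` has norm
at most `ρ ^ n` -/
theorem norm_le_pow_of_mem_pow (φ : S →+* Ω) (hφ : ∀ s, ‖φ s‖ ≤ 1) {G : Set S} {ρ : ℝ}
    (hρ : 0 ≤ ρ) (hG : ∀ g ∈ G, ‖φ g‖ ≤ ρ) (n : ℕ) {z : S} (hz : z ∈ Ideal.span G ^ n) :
    ‖φ z‖ ≤ ρ ^ n := by
  have h1 : Ideal.span G ≤ ballIdeal φ hφ ρ hρ := Ideal.span_le.mpr fun g hg => hG g hg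
  have h2 : ∀ n : ℕ, ballIdeal φ hφ ρ hρ ^ n ≤ ballIdeal φ hφ (ρ ^ n) (pow_nonneg hρ n) := by
    intro n
    induction n with
    | zero =>
      intro z _
      rw [mem_ballIdeal, pow_zero]
      exact hφ z
    | succ n ih =>
      rw [pow_succ]
      refine Ideal.mul_le.mpr fun a ha b hb => ?_
      rw [mem_ballIdeal, map_mul, norm_mul, pow_succ]
      exact mul_le_mul (ih ha) hb (norm_nonneg _) (pow_nonneg hρ n)
  exact h2 n (Ideal.pow_right_mono h1 n hz)

end Ball

/-! ### the data -/

/-- The data of the abstract expansion theorem. -/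
structure ExpData (W₀ R B Ω σ Pt : Type*) [CommRing W₀] [CommRing R] [CommRing B]
    [NormedField Ω] where
  /-- the constants of `R` -/
  ι : W₀ →+* R
  /-- the constants of `B` -/
  c : W₀ →+* B
  /-- the uniformizer -/
  ϖ : W₀
  /-- the coordinates of `R` -/
  x : σ → R
  /-- the coordinates of `B` -/
  X : σ → B
  /-- the evaluations of `R` at the points -/
  ev : Pt → R →+* Ω
  /-- the evaluations of `B` at the points -/
  evB : Pt → B →+* Ω
  evB_c : ∀ P a, evB P (c a) = ev P (ι a)
  evB_X : ∀ P s, evB P (X s) = ev P (x s)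
  ev_le : ∀ P y, ‖ev P y‖ ≤ 1
  evB_le : ∀ P b, ‖evB P b‖ ≤ 1
  /-- the radius of a point -/
  rad : Pt → ℝ
  rad_lt : ∀ P, rad P < 1
  ev_unif_le : ∀ P, ‖ev P (ι ϖ)‖ ≤ rad P
  ev_x_le : ∀ P s, ‖ev P (x s)‖ ≤ rad P
  /-- `R = ι W₀ + 𝔪` -/
  hres : ∀ y : R, ∃ a : W₀, y - ι a ∈ Ideal.span (insert (ι ϖ) (Set.range x))
  /-- `B` is complete for the ideal `(c ϖ, X s)`, in the weak (pointwise) sense: a sequence which
  is Cauchy for the `(c ϖ, X s)`-adic filtration has a limit `L` whose values are the limits of the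
  values.  (Implied by adic completeness, see `complete_of_adic`.) -/
  complete : ∀ f : ℕ → B,
    (∀ n, f (n + 1) - f n ∈ Ideal.span (insert (c ϖ) (Set.range X)) ^ n) →
    ∃ L : B, ∀ P, Filter.Tendsto (fun n => evB P (f n)) Filter.atTop (nhds (evB P L))
  /-- the identity theorem of `B` -/
  hsep : ∀ b : B, (∀ P, evB P b = 0) → b = 0

namespace ExpData

variable {W₀ R B Ω σ Pt : Type*} [CommRing W₀] [CommRing R] [CommRing B]
  [NormedField Ω] (D : ExpData W₀ R B Ω σ Pt)

/-- the ideal `𝔪 = (ι ϖ, x s)` of `R` -/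
def mR : Ideal R := Ideal.span (insert (D.ι D.ϖ) (Set.range D.x))

/-- the ideal `I = (c ϖ, X s)` of `B` -/
def mB : Ideal B := Ideal.span (insert (D.c D.ϖ) (Set.range D.X))

/-- the ideal `J = (ϖ, X s)` of the polynomial ring -/
noncomputable def mP : Ideal (MvPolynomial σ W₀) :=
  Ideal.span (insert (C D.ϖ) (Set.range (MvPolynomial.X : σ → MvPolynomial σ W₀)))

/-- evaluation of polynomials in `R` -/
noncomputable def toR : MvPolynomial σ W₀ →+* R := eval₂Hom D.ι D.x

/-- evaluation of polynomials in `B` -/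
noncomputable def toB : MvPolynomial σ W₀ →+* B := eval₂Hom D.c D.X

@[simp] theorem toR_C (a : W₀) : D.toR (C a) = D.ι a := eval₂Hom_C _ _ _
@[simp] theorem toR_X (s : σ) : D.toR (MvPolynomial.X s) = D.x s := eval₂Hom_X' _ _ _
@[simp] theorem toB_C (a : W₀) : D.toB (C a) = D.c a := eval₂Hom_C _ _ _
@[simp] theorem toB_X (s : σ) : D.toB (MvPolynomial.X s) = D.X s := eval₂Hom_X' _ _ _

theorem map_toR_mP : Ideal.map D.toR D.mP = D.mR := by
  unfold mP mR
  have h1 : D.toR (C D.ϖ) = D.ι D.ϖ := D.toR_C _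
  have h2 : (D.toR ∘ (MvPolynomial.X : σ → MvPolynomial σ W₀)) = D.x := funext D.toR_X
  rw [Ideal.map_span, Set.image_insert_eq, ← Set.range_comp, h1, h2]

theorem map_toB_mP : Ideal.map D.toB D.mP = D.mB := by
  unfold mP mB
  have h1 : D.toB (C D.ϖ) = D.c D.ϖ := D.toB_C _
  have h2 : (D.toB ∘ (MvPolynomial.X : σ → MvPolynomial σ W₀)) = D.X := funext D.toB_X
  rw [Ideal.map_span, Set.image_insert_eq, ← Set.range_comp, h1, h2]

theorem toR_mem_pow {n : ℕ} {p : MvPolynomial σ W₀} (hp : p ∈ D.mP ^ n) :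
    D.toR p ∈ D.mR ^ n := by
  rw [← D.map_toR_mP, ← Ideal.map_pow]
  exact Ideal.mem_map_of_mem _ hp

theorem toB_mem_pow {n : ℕ} {p : MvPolynomial σ W₀} (hp : p ∈ D.mP ^ n) :
    D.toB p ∈ D.mB ^ n := by
  rw [← D.map_toB_mP, ← Ideal.map_pow]
  exact Ideal.mem_map_of_mem _ hp

/-- the two evaluations of a polynomial agree at every point -/
theorem evB_toB (P : Pt) (p : MvPolynomial σ W₀) : D.evB P (D.toB p) = D.ev P (D.toR p) := by
  have h : (D.evB P).comp D.toB = (D.ev P).comp D.toR := by
    apply MvPolynomial.ringHom_ext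
    · intro a
      simp [D.evB_c]
    · intro s
      simp [D.evB_X]
  exact RingHom.congr_fun h p

/-! ### approximation by polynomials -/

/-- **One step**: an element of `𝔪 ^ n` is a polynomial of `J ^ n` modulo `𝔪 ^ (n + 1)`. -/
theorem exists_poly_step (n : ℕ) :
    ∀ z ∈ D.mR ^ n, ∃ p ∈ D.mP ^ n, z - D.toR p ∈ D.mR ^ (n + 1) := by
  induction n with
  | zero =>
    intro z _
    obtain ⟨a, ha⟩ := D.hres z
    refine ⟨C a, by simp, ?_⟩
    rw [toR_C, zero_add, pow_one]
    exact ha
  | succ n ih =>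
    intro z hz
    rw [pow_succ] at hz
    -- the statement for a product `m * g`, `m ∈ 𝔪 ^ n`, `g ∈ 𝔪`
    have key : ∀ g ∈ D.mR, ∀ m ∈ D.mR ^ n,
        ∃ p ∈ D.mP ^ (n + 1), m * g - D.toR p ∈ D.mR ^ (n + 1 + 1) := by
      intro g hg
      refine Submodule.span_induction (p := fun g _ => ∀ m ∈ D.mR ^ n,
        ∃ p ∈ D.mP ^ (n + 1), m * g - D.toR p ∈ D.mR ^ (n + 1 + 1)) ?_ ?_ ?_ ?_ hg
      · -- generators
        intro g hg m hm
        obtain ⟨p₀, hp₀, hmp⟩ := ih m hm
        rcases hg with rfl | ⟨s, rfl⟩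
        · refine ⟨p₀ * C D.ϖ, ?_, ?_⟩
          · rw [pow_succ]
            exact Ideal.mul_mem_mul hp₀ (Ideal.subset_span (Set.mem_insert _ _))
          · have e : m * D.ι D.ϖ - D.toR (p₀ * C D.ϖ) = (m - D.toR p₀) * D.ι D.ϖ := by
              rw [map_mul, toR_C]; ring
            rw [e, pow_succ (D.mR) (n + 1)]
            exact Ideal.mul_mem_mul hmp (Ideal.subset_span (Set.mem_insert _ _))
        · refine ⟨p₀ * MvPolynomial.X s, ?_, ?_⟩
          · rw [pow_succ]
            exact Ideal.mul_mem_mul hp₀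
              (Ideal.subset_span (Set.mem_insert_of_mem _ (Set.mem_range_self s)))
          · have e : m * D.x s - D.toR (p₀ * MvPolynomial.X s) = (m - D.toR p₀) * D.x s := by
              rw [map_mul, toR_X]; ring
            rw [e, pow_succ (D.mR) (n + 1)]
            exact Ideal.mul_mem_mul hmp
              (Ideal.subset_span (Set.mem_insert_of_mem _ (Set.mem_range_self s)))
      · -- zero
        intro m _
        exact ⟨0, zero_mem _, by simp⟩
      · -- sums
        intro g g' _ _ h h' m hm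
        obtain ⟨p, hp, hpm⟩ := h m hm
        obtain ⟨p', hp', hpm'⟩ := h' m hm
        refine ⟨p + p', add_mem hp hp', ?_⟩
        have e : m * (g + g') - D.toR (p + p') = (m * g - D.toR p) + (m * g' - D.toR p') := by
          rw [map_add]; ring
        rw [e]
        exact add_mem hpm hpm'
      · -- multiples
        intro r g _ h m hm
        obtain ⟨p, hp, hpm⟩ := h (m * r) (Ideal.mul_mem_right _ _ hm)
        refine ⟨p, hp, ?_⟩
        have e : m * (r • g) - D.toR p = m * r * g - D.toR p := by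
          rw [smul_eq_mul]; ring
        rw [e]
        exact hpm
    refine Submodule.mul_induction_on hz ?_ ?_
    · intro m hm g hg
      exact key g hg m hm
    · intro a b ha hb
      obtain ⟨p, hp, hpa⟩ := ha
      obtain ⟨p', hp', hpb⟩ := hb
      refine ⟨p + p', add_mem hp hp', ?_⟩
      have e : a + b - D.toR (p + p') = (a - D.toR p) + (b - D.toR p') := by
        rw [map_add]; ring
      rw [e]
      exact add_mem hpa hpb

/-- **Approximating sequence**: every `y : R` has polynomial approximants `q n` with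
`y - q n (x) ∈ 𝔪 ^ n` and `q (n + 1) - q n ∈ J ^ n`. -/
theorem exists_poly_seq (y : R) : ∃ q : ℕ → MvPolynomial σ W₀,
    (∀ n, y - D.toR (q n) ∈ D.mR ^ n) ∧ ∀ n, q (n + 1) - q n ∈ D.mP ^ n := by
  classical
  -- the recursion on the subtype of approximants of order `n`
  let step : ∀ n : ℕ, {q : MvPolynomial σ W₀ // y - D.toR q ∈ D.mR ^ n} →
      {q : MvPolynomial σ W₀ // y - D.toR q ∈ D.mR ^ (n + 1)} := fun n q =>
    ⟨q.1 + (D.exists_poly_step n _ q.2).choose, by
      have h := (D.exists_poly_step n _ q.2).choose_spec.2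
      have e : y - D.toR (q.1 + (D.exists_poly_step n _ q.2).choose) =
          y - D.toR q.1 - D.toR (D.exists_poly_step n _ q.2).choose := by
        rw [map_add]; ring
      rw [e]
      exact h⟩
  let seq : ∀ n : ℕ, {q : MvPolynomial σ W₀ // y - D.toR q ∈ D.mR ^ n} := fun n =>
    Nat.rec (motive := fun n => {q : MvPolynomial σ W₀ // y - D.toR q ∈ D.mR ^ n})
      ⟨0, by simp⟩ (fun n q => step n q) n
  refine ⟨fun n => (seq n).1, fun n => (seq n).2, fun n => ?_⟩
  have h : (seq (n + 1)).1 = (seq n).1 + (D.exists_poly_step n _ (seq n).2).choose := rfl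
  show (seq (n + 1)).1 - (seq n).1 ∈ D.mP ^ n
  rw [h, add_sub_cancel_left]
  exact (D.exists_poly_step n _ (seq n).2).choose_spec.1

/-! ### the expansion of an element -/

theorem rad_nonneg (P : Pt) : 0 ≤ D.rad P := (norm_nonneg _).trans (D.ev_unif_le P)

variable [IsUltrametricDist Ω]

theorem norm_ev_le_pow (P : Pt) (n : ℕ) {z : R} (hz : z ∈ D.mR ^ n) :
    ‖D.ev P z‖ ≤ D.rad P ^ n := by
  refine norm_le_pow_of_mem_pow (D.ev P) (D.ev_le P) (D.rad_nonneg P) ?_ n hz
  rintro g (rfl | ⟨s, rfl⟩)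
  · exact D.ev_unif_le P
  · exact D.ev_x_le P s

theorem norm_evB_le_pow (P : Pt) (n : ℕ) {z : B} (hz : z ∈ D.mB ^ n) :
    ‖D.evB P z‖ ≤ D.rad P ^ n := by
  refine norm_le_pow_of_mem_pow (D.evB P) (D.evB_le P) (D.rad_nonneg P) ?_ n hz
  rintro g (rfl | ⟨s, rfl⟩)
  · rw [D.evB_c]
    exact D.ev_unif_le P
  · rw [D.evB_X]
    exact D.ev_x_le P s

/-- **Existence of the expansion**: for every `y : R` there is `b : B` with the same values. -/
theorem exists_expansion (y : R) : ∃ b : B, ∀ P, D.evB P b = D.ev P y := by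
  obtain ⟨q, hq1, hq2⟩ := D.exists_poly_seq y
  obtain ⟨b, hb⟩ := D.complete (fun n => D.toB (q n)) (fun n => by
    show D.toB (q (n + 1)) - D.toB (q n) ∈ D.mB ^ n
    rw [← map_sub]
    exact D.toB_mem_pow (hq2 n))
  refine ⟨b, fun P => ?_⟩
  -- the values of the approximants tend to `ev P y`
  have hlim : Filter.Tendsto (fun n : ℕ => D.rad P ^ n) Filter.atTop (nhds 0) :=
    tendsto_pow_atTop_nhds_zero_of_lt_one (D.rad_nonneg P) (D.rad_lt P)
  have h2 : Filter.Tendsto (fun n => D.evB P (D.toB (q n))) Filter.atTop (nhds (D.ev P y)) := by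
    rw [tendsto_iff_norm_sub_tendsto_zero]
    refine squeeze_zero (fun n => norm_nonneg _) (fun n => ?_) hlim
    rw [D.evB_toB, ← map_sub, ← norm_neg, ← map_neg, neg_sub]
    exact D.norm_ev_le_pow P n (hq1 n)
  exact tendsto_nhds_unique (hb P) h2

omit [IsUltrametricDist Ω] in
/-- uniqueness of the expansion -/
theorem expansion_unique {b b' : B} {y : R} (h : ∀ P, D.evB P b = D.ev P y)
    (h' : ∀ P, D.evB P b' = D.ev P y) : b = b' := by
  refine sub_eq_zero.mp (D.hsep _ fun P => ?_)
  rw [map_sub, h, h', sub_self]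

/-- the expansion of an element -/
noncomputable def expandFun (y : R) : B := (D.exists_expansion y).choose

theorem evB_expandFun (P : Pt) (y : R) : D.evB P (D.expandFun y) = D.ev P y :=
  (D.exists_expansion y).choose_spec P

theorem expandFun_eq {b : B} {y : R} (h : ∀ P, D.evB P b = D.ev P y) : D.expandFun y = b :=
  D.expansion_unique (fun P => D.evB_expandFun P y) h

/-- **The expansion homomorphism.** -/
noncomputable def expand : R →+* B where
  toFun := D.expandFun
  map_one' := D.expandFun_eq fun P => by rw [map_one, map_one]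
  map_mul' y y' := D.expandFun_eq fun P => by
    rw [map_mul, map_mul, D.evB_expandFun, D.evB_expandFun]
  map_zero' := D.expandFun_eq fun P => by rw [map_zero, map_zero]
  map_add' y y' := D.expandFun_eq fun P => by
    rw [map_add, map_add, D.evB_expandFun, D.evB_expandFun]

/-- the expansion has the same values as the function -/
theorem evB_expand (P : Pt) (y : R) : D.evB P (D.expand y) = D.ev P y := D.evB_expandFun P y

/-- the expansion is the only map with the same values -/
theorem expand_eq {b : B} {y : R} (h : ∀ P, D.evB P b = D.ev P y) : D.expand y = b :=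
  D.expandFun_eq h

theorem expand_unique (e : R →+* B) (he : ∀ P y, D.evB P (e y) = D.ev P y) : e = D.expand :=
  RingHom.ext fun y => (D.expand_eq fun P => he P y).symm

@[simp] theorem expand_const (a : W₀) : D.expand (D.ι a) = D.c a :=
  D.expand_eq fun P => D.evB_c P a

@[simp] theorem expand_coord (s : σ) : D.expand (D.x s) = D.X s :=
  D.expand_eq fun P => D.evB_X P s

theorem expand_toR (p : MvPolynomial σ W₀) : D.expand (D.toR p) = D.toB p :=
  D.expand_eq fun P => D.evB_toB P p

theorem map_expand_mR : Ideal.map D.expand D.mR = D.mB := by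
  unfold mR mB
  have h1 : D.expand (D.ι D.ϖ) = D.c D.ϖ := D.expand_const _
  have h2 : (D.expand ∘ D.x) = D.X := funext D.expand_coord
  rw [Ideal.map_span, Set.image_insert_eq, ← Set.range_comp, h1, h2]

/-- the expansion maps `𝔪 ^ n` into `I ^ n` -/
theorem expand_mem_pow {n : ℕ} {y : R} (hy : y ∈ D.mR ^ n) : D.expand y ∈ D.mB ^ n := by
  rw [← D.map_expand_mR, ← Ideal.map_pow]
  exact Ideal.mem_map_of_mem _ hy

/-- the expansion is injective when the points separate the elements of `R` -/
theorem expand_injective (h : ∀ y : R, (∀ P, D.ev P y = 0) → y = 0) :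
    Function.Injective D.expand := by
  rw [injective_iff_map_eq_zero]
  intro y hy
  refine h y fun P => ?_
  rw [← D.evB_expand, hy, map_zero]

/-- **Density**: if `B = c W₀ + I`, every element of `B` is an expansion modulo `I ^ n`. -/
theorem exists_expand_approx (hresB : ∀ b : B, ∃ a : W₀, b - D.c a ∈ D.mB) (b : B) (n : ℕ) :
    ∃ y : R, b - D.expand y ∈ D.mB ^ n := by
  -- apply the approximation to the data with `R := B`
  let D' : ExpData W₀ B B Ω σ Pt :=
    { ι := D.c, c := D.c, ϖ := D.ϖ, x := D.X, X := D.X, ev := D.evB, evB := D.evB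
      evB_c := fun _ _ => rfl, evB_X := fun _ _ => rfl, ev_le := D.evB_le, evB_le := D.evB_le
      rad := D.rad, rad_lt := D.rad_lt
      ev_unif_le := fun P => by rw [D.evB_c]; exact D.ev_unif_le P
      ev_x_le := fun P s => by rw [D.evB_X]; exact D.ev_x_le P s
      hres := hresB, complete := D.complete, hsep := D.hsep }
  obtain ⟨q, hq1, -⟩ := D'.exists_poly_seq b
  refine ⟨D.toR (q n), ?_⟩
  rw [D.expand_toR]
  exact hq1 n

end ExpData

/-- adic completeness in elementary form: a sequence Cauchy for the `I`-adic filtration has a limit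
modulo every `I ^ n` (from Mathlib's `IsPrecomplete`) -/
theorem adic_of_isPrecomplete {B : Type*} [CommRing B] (I : Ideal B) [IsPrecomplete I B]
    (f : ℕ → B) (hf : ∀ n, f (n + 1) - f n ∈ I ^ n) : ∃ L : B, ∀ n, L - f n ∈ I ^ n := by
  have hmono : ∀ m n : ℕ, m ≤ n → f n - f m ∈ I ^ m := by
    intro m n hmn
    induction n, hmn using Nat.le_induction with
    | base => simp
    | succ n hmn ih =>
      have e : f (n + 1) - f m = (f (n + 1) - f n) + (f n - f m) := by ring
      rw [e]
      exact add_mem (Ideal.pow_le_pow_right hmn (hf n)) ih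
  obtain ⟨L, hL⟩ := IsPrecomplete.prec ‹IsPrecomplete I B› (f := f) (fun {m n} hmn => by
    rw [SModEq.sub_mem, smul_eq_mul, Ideal.mul_top]
    have := hmono m n hmn
    rw [← neg_sub]
    exact neg_mem this)
  refine ⟨L, fun n => ?_⟩
  have := hL n
  rw [SModEq.sub_mem, smul_eq_mul, Ideal.mul_top] at this
  rw [← neg_sub]
  exact neg_mem this

/-- **The field `complete` from adic completeness**: if `L - f n ∈ I ^ n` for all `n`, where
`I` is generated by elements of `φ`-norm at most `ρ < 1` and `φ` is bounded by one, then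
`φ (f n)` tends to `φ L`. -/
theorem tendsto_of_sub_mem_pow {B Ω : Type*} [CommRing B] [NormedField Ω] [IsUltrametricDist Ω]
    (φ : B →+* Ω) (hφ : ∀ b, ‖φ b‖ ≤ 1) {G : Set B} {ρ : ℝ} (hρ0 : 0 ≤ ρ) (hρ1 : ρ < 1)
    (hG : ∀ g ∈ G, ‖φ g‖ ≤ ρ) {f : ℕ → B} {L : B} (h : ∀ n, L - f n ∈ Ideal.span G ^ n) :
    Filter.Tendsto (fun n => φ (f n)) Filter.atTop (nhds (φ L)) := by
  rw [tendsto_iff_norm_sub_tendsto_zero]
  refine squeeze_zero (fun n => norm_nonneg _) (fun n => ?_)
    (tendsto_pow_atTop_nhds_zero_of_lt_one hρ0 hρ1)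
  rw [← map_sub, ← norm_neg, ← map_neg, neg_sub]
  exact norm_le_pow_of_mem_pow φ hφ hρ0 hG n (h n)

end Fermat.Agent.FF3.Expand
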