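/-
Programme I (S33, p-new half), block B3 (expansion layer) (helper5):
the abstract NODE TARGET consumed by the node instance of the expansion theorem
(`FF3/ExpandBR`, helper20) — a ring `B` with constants `c : W₀ →+* B`, coordinates `X, Y` with
`X Y = c π`, evaluations at the points of the open annulus `‖π‖ < ‖a‖ < 1` of `Ω`, completeness
in the pointwise form of `Expand.ExpData.complete`, and the two-ended identity theorem.
Same fields as helper20's `ExpandBR.NodeTargetEv`, except `complete` (pointwise form).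
Instance: `FF3/NodeEval/TargetInst` (from any `NodeModel`).
-/
import Mathlib

set_option autoImplicit false

namespace Fermat.Agent.FF3.Expand

/-- the abstract node target -/
structure NodeTargetEv (W₀ : Type*) [CommRing W₀] (ϖ π : W₀) (Ω : Type*) [NormedField Ω]
    (j₀ : W₀ →+* Ω) (B : Type*) [CommRing B] where
  /-- the constants -/
  c : W₀ →+* B
  /-- the first coordinate -/
  X : B
  /-- the second coordinate -/
  Y : B
  X_mul_Y : X * Y = c π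
  /-- evaluation at a point of the open annulus -/
  evalAt : ∀ a : Ω, ‖j₀ π‖ < ‖a‖ → ‖a‖ < 1 → B →+* Ω
  evalAt_c : ∀ (a : Ω) (h1 : ‖j₀ π‖ < ‖a‖) (h2 : ‖a‖ < 1) (w : W₀), evalAt a h1 h2 (c w) = j₀ w
  evalAt_X : ∀ (a : Ω) (h1 : ‖j₀ π‖ < ‖a‖) (h2 : ‖a‖ < 1), evalAt a h1 h2 X = a
  evalAt_le : ∀ (a : Ω) (h1 : ‖j₀ π‖ < ‖a‖) (h2 : ‖a‖ < 1) (b : B), ‖evalAt a h1 h2 b‖ ≤ 1
  /-- completeness for `(ϖ, X, Y)`, pointwise form -/
  complete : ∀ f : ℕ → B, (∀ n, f (n + 1) - f n ∈ Ideal.span {c ϖ, X, Y} ^ n) →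
    ∃ l : B, ∀ (a : Ω) (h1 : ‖j₀ π‖ < ‖a‖) (h2 : ‖a‖ < 1),
      Filter.Tendsto (fun n => evalAt a h1 h2 (f n)) Filter.atTop (nhds (evalAt a h1 h2 l))
  /-- the identity theorem -/
  ident : ∀ b : B, b ≠ 0 → ∃ ρ : ℝ, ρ < 1 ∧
    ((∀ (a : Ω) (h1 : ‖j₀ π‖ < ‖a‖) (h2 : ‖a‖ < 1), ρ < ‖a‖ → evalAt a h1 h2 b ≠ 0) ∨
     (∀ (a : Ω) (h1 : ‖j₀ π‖ < ‖a‖) (h2 : ‖a‖ < 1), ρ < ‖j₀ π‖ / ‖a‖ → evalAt a h1 h2 b ≠ 0))

namespace NodeTargetEv

variable {W₀ : Type*} [CommRing W₀] {ϖ π : W₀} {Ω : Type*} [NormedField Ω] {j₀ : W₀ →+* Ω}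
  {B : Type*} [CommRing B] (Tg : NodeTargetEv W₀ ϖ π Ω j₀ B)

theorem evalAt_Y (a : Ω) (h1 : ‖j₀ π‖ < ‖a‖) (h2 : ‖a‖ < 1) :
    Tg.evalAt a h1 h2 Tg.Y = j₀ π / a := by
  have ha : a ≠ 0 := by
    intro h0
    rw [h0, norm_zero] at h1
    exact not_lt.mpr (norm_nonneg _) h1
  have h := congrArg (Tg.evalAt a h1 h2) Tg.X_mul_Y
  rw [map_mul, Tg.evalAt_X, Tg.evalAt_c] at h
  rw [eq_div_iff ha, mul_comm]
  exact h

end NodeTargetEv

end Fermat.Agent.FF3.Expand
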