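/-
Programme I (S33, p-new half), design contract D-B3 (expansion layer), abstract core (helper5):
**(X3) FUNCTORIALITY / EQUIVARIANCE of the expansion.**  Mathlib-only (+ `Expand/Abstract`).

A MORPHISM `m : Mor D₁ D₂` of expansion data consists of ring homomorphisms `σW : W₁ →+* W₂`
(constants), `g : R₁ →+* R₂` (functions), an isometric ring homomorphism `σΩ : Ω →+* Ω` and a map
of points `perm : Pt₂ → Pt₁` with `g ∘ ι₁ = ι₂ ∘ σW`, `(g y)(Q) = σΩ (y (perm Q))`, and
`g (ι₁ ϖ₁), g (x₁ s) ∈ 𝔪₂`.  (Examples: a semilinear automorphism of a level — an inertia element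
acting on the functions, on the constants and on the points, with no hypothesis `σW ϖ = ϖ`; the
inclusion of a level in a larger one; an involution exchanging the two branches.)

If `B₁ = c₁ W₁ + (c₁ ϖ₁, X₁ s)` (`hresB`, true for the node and disc targets) there is a UNIQUE
`transfer : B₁ →+* B₂` with `(transfer b)(Q) = σΩ (b (perm Q))`; it satisfies
`transfer (expand₁ y) = expand₂ (g y)`, `transfer (c₁ a) = c₂ (σW a)`,
`transfer (X₁ s) = expand₂ (g (x₁ s))`, it maps `I₁ ^ n` into `I₂ ^ n`, and it is functorial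
(`transfer_id`, `transfer_comp` by uniqueness).
-/
import Mathlib
import Fermat.Agent.FF3.Expand.Abstract

set_option autoImplicit false

namespace Fermat.Agent.FF3.Expand

namespace ExpData

variable {W₁ R₁ B₁ σ₁ Pt₁ W₂ R₂ B₂ σ₂ Pt₂ W₃ R₃ B₃ σ₃ Pt₃ Ω : Type*}
  [CommRing W₁] [CommRing R₁] [CommRing B₁] [CommRing W₂] [CommRing R₂] [CommRing B₂]
  [CommRing W₃] [CommRing R₃] [CommRing B₃] [NormedField Ω]

/-- A morphism of expansion data. -/
structure Mor (D₁ : ExpData W₁ R₁ B₁ Ω σ₁ Pt₁) (D₂ : ExpData W₂ R₂ B₂ Ω σ₂ Pt₂) where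
  /-- the action on the constants -/
  σW : W₁ →+* W₂
  /-- the action on the functions -/
  g : R₁ →+* R₂
  /-- the action on the values -/
  σΩ : Ω →+* Ω
  /-- the action on the points -/
  perm : Pt₂ → Pt₁
  norm_σΩ : ∀ x, ‖σΩ x‖ = ‖x‖
  g_ι : ∀ a, g (D₁.ι a) = D₂.ι (σW a)
  ev_g : ∀ Q y, D₂.ev Q (g y) = σΩ (D₁.ev (perm Q) y)
  g_unif : g (D₁.ι D₁.ϖ) ∈ D₂.mR
  g_x : ∀ s, g (D₁.x s) ∈ D₂.mR

variable {D₁ : ExpData W₁ R₁ B₁ Ω σ₁ Pt₁} {D₂ : ExpData W₂ R₂ B₂ Ω σ₂ Pt₂}
  {D₃ : ExpData W₃ R₃ B₃ Ω σ₃ Pt₃}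

/-- elements with the same values are equal -/
theorem eq_of_evB_eq (D : ExpData W₁ R₁ B₁ Ω σ₁ Pt₁) {b b' : B₁}
    (h : ∀ P, D.evB P b = D.evB P b') : b = b' :=
  sub_eq_zero.mp (D.hsep _ fun P => by rw [map_sub, h P, sub_self])

namespace Mor

variable (m : Mor D₁ D₂)

/-- `g` maps `𝔪₁` into `𝔪₂` -/
theorem g_mem {y : R₁} (hy : y ∈ D₁.mR) : m.g y ∈ D₂.mR := by
  have h : D₁.mR ≤ Ideal.comap m.g D₂.mR := by
    refine Ideal.span_le.mpr ?_
    rintro z (rfl | ⟨s, rfl⟩)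
    · exact m.g_unif
    · exact m.g_x s
  exact h hy

variable [IsUltrametricDist Ω]

/-- the generators of the twisted ideal lie in `I₂` -/
theorem span_le_mB : Ideal.span (insert ((D₂.c.comp m.σW) D₁.ϖ)
    (Set.range fun s => D₂.expand (m.g (D₁.x s)))) ≤ D₂.mB := by
  refine Ideal.span_le.mpr ?_
  rintro z (rfl | ⟨s, rfl⟩)
  · have h := D₂.expand_mem_pow (n := 1) (y := m.g (D₁.ι D₁.ϖ)) (by rw [pow_one]; exact m.g_unif)
    rw [pow_one, m.g_ι, D₂.expand_const] at h
    exact h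
  · have h := D₂.expand_mem_pow (n := 1) (y := m.g (D₁.x s)) (by rw [pow_one]; exact m.g_x s)
    rwa [pow_one] at h

/-- the expansion data whose expansion is the transfer map: `R := B₁`, with the values twisted by
the morphism -/
noncomputable def transferData (hresB : ∀ b : B₁, ∃ a : W₁, b - D₁.c a ∈ D₁.mB) :
    ExpData W₁ B₁ B₂ Ω σ₁ Pt₂ where
  ι := D₁.c
  c := D₂.c.comp m.σW
  ϖ := D₁.ϖ
  x := D₁.X
  X := fun s => D₂.expand (m.g (D₁.x s))
  ev := fun Q => m.σΩ.comp (D₁.evB (m.perm Q))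
  evB := D₂.evB
  evB_c := fun Q a => by
    rw [RingHom.comp_apply, RingHom.comp_apply, D₂.evB_c, ← m.g_ι, m.ev_g, D₁.evB_c]
  evB_X := fun Q s => by
    rw [RingHom.comp_apply, D₂.evB_expand, m.ev_g, D₁.evB_X]
  ev_le := fun Q b => by
    rw [RingHom.comp_apply, m.norm_σΩ]
    exact D₁.evB_le _ b
  evB_le := D₂.evB_le
  rad := fun Q => D₁.rad (m.perm Q)
  rad_lt := fun Q => D₁.rad_lt _
  ev_unif_le := fun Q => by
    rw [RingHom.comp_apply, m.norm_σΩ, D₁.evB_c]
    exact D₁.ev_unif_le _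
  ev_x_le := fun Q s => by
    rw [RingHom.comp_apply, m.norm_σΩ, D₁.evB_X]
    exact D₁.ev_x_le _ s
  hres := hresB
  complete := fun f hf =>
    D₂.complete f fun n => Ideal.pow_right_mono m.span_le_mB n (hf n)
  hsep := D₂.hsep

/-- **The transfer map** `B₁ →+* B₂` of a morphism of expansion data. -/
noncomputable def transfer (hresB : ∀ b : B₁, ∃ a : W₁, b - D₁.c a ∈ D₁.mB) : B₁ →+* B₂ :=
  (m.transferData hresB).expand

variable (hresB : ∀ b : B₁, ∃ a : W₁, b - D₁.c a ∈ D₁.mB)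

/-- the values of the transfer -/
theorem evB_transfer (Q : Pt₂) (b : B₁) :
    D₂.evB Q (m.transfer hresB b) = m.σΩ (D₁.evB (m.perm Q) b) :=
  (m.transferData hresB).evB_expand Q b

/-- the transfer is the only map with these values -/
theorem transfer_eq {b : B₁} {b' : B₂}
    (h : ∀ Q, D₂.evB Q b' = m.σΩ (D₁.evB (m.perm Q) b)) : m.transfer hresB b = b' :=
  (m.transferData hresB).expand_eq h

theorem transfer_unique (T : B₁ →+* B₂)
    (h : ∀ Q b, D₂.evB Q (T b) = m.σΩ (D₁.evB (m.perm Q) b)) : T = m.transfer hresB :=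
  RingHom.ext fun b => (m.transfer_eq hresB fun Q => h Q b).symm

/-- **Equivariance of the expansion**: `transfer ∘ expand₁ = expand₂ ∘ g`. -/
theorem transfer_expand (y : R₁) : m.transfer hresB (D₁.expand y) = D₂.expand (m.g y) :=
  m.transfer_eq hresB fun Q => by rw [D₂.evB_expand, m.ev_g, D₁.evB_expand]

theorem transfer_c (a : W₁) : m.transfer hresB (D₁.c a) = D₂.c (m.σW a) :=
  (m.transferData hresB).expand_const a

theorem transfer_X (s : σ₁) : m.transfer hresB (D₁.X s) = D₂.expand (m.g (D₁.x s)) :=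
  (m.transferData hresB).expand_coord s

/-- the transfer maps `I₁ ^ n` into `I₂ ^ n` -/
theorem transfer_mem_pow {n : ℕ} {b : B₁} (hb : b ∈ D₁.mB ^ n) :
    m.transfer hresB b ∈ D₂.mB ^ n :=
  Ideal.pow_right_mono m.span_le_mB n ((m.transferData hresB).expand_mem_pow hb)

/-- the norms of the values are preserved -/
theorem norm_evB_transfer (Q : Pt₂) (b : B₁) :
    ‖D₂.evB Q (m.transfer hresB b)‖ = ‖D₁.evB (m.perm Q) b‖ := by
  rw [m.evB_transfer, m.norm_σΩ]

/-- the transfer is injective when the image of `perm` separates the elements of `B₁` -/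
theorem transfer_injective (hsep : ∀ b : B₁, (∀ Q, D₁.evB (m.perm Q) b = 0) → b = 0) :
    Function.Injective (m.transfer hresB) := by
  rw [injective_iff_map_eq_zero]
  intro b hb
  refine hsep b fun Q => ?_
  have h := m.evB_transfer hresB Q b
  rw [hb, map_zero] at h
  have h2 := m.norm_σΩ (D₁.evB (m.perm Q) b)
  rw [← h, norm_zero] at h2
  exact norm_eq_zero.mp h2.symm

end Mor

/-! ### identity and composition -/

/-- the identity morphism -/
def Mor.id (D : ExpData W₁ R₁ B₁ Ω σ₁ Pt₁) : Mor D D where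
  σW := RingHom.id _
  g := RingHom.id _
  σΩ := RingHom.id _
  perm := fun P => P
  norm_σΩ := fun _ => rfl
  g_ι := fun _ => rfl
  ev_g := fun _ _ => rfl
  g_unif := Ideal.subset_span (Set.mem_insert _ _)
  g_x := fun s => Ideal.subset_span (Set.mem_insert_of_mem _ (Set.mem_range_self s))

/-- the composition of two morphisms -/
def Mor.comp (m' : Mor D₂ D₃) (m : Mor D₁ D₂) : Mor D₁ D₃ where
  σW := m'.σW.comp m.σW
  g := m'.g.comp m.g
  σΩ := m'.σΩ.comp m.σΩ
  perm := fun P => m.perm (m'.perm P)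
  norm_σΩ := fun x => by rw [RingHom.comp_apply, m'.norm_σΩ, m.norm_σΩ]
  g_ι := fun a => by rw [RingHom.comp_apply, m.g_ι, m'.g_ι, RingHom.comp_apply]
  ev_g := fun Q y => by rw [RingHom.comp_apply, m'.ev_g, m.ev_g, RingHom.comp_apply]
  g_unif := m'.g_mem m.g_unif
  g_x := fun s => m'.g_mem (m.g_x s)

variable [IsUltrametricDist Ω]

theorem Mor.transfer_id (D : ExpData W₁ R₁ B₁ Ω σ₁ Pt₁)
    (hresB : ∀ b : B₁, ∃ a : W₁, b - D.c a ∈ D.mB) :
    (Mor.id D).transfer hresB = RingHom.id B₁ :=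
  ((Mor.id D).transfer_unique hresB (RingHom.id B₁) fun _ _ => rfl).symm

theorem Mor.transfer_comp (m' : Mor D₂ D₃) (m : Mor D₁ D₂)
    (hresB₁ : ∀ b : B₁, ∃ a : W₁, b - D₁.c a ∈ D₁.mB)
    (hresB₂ : ∀ b : B₂, ∃ a : W₂, b - D₂.c a ∈ D₂.mB) :
    (m'.comp m).transfer hresB₁ = (m'.transfer hresB₂).comp (m.transfer hresB₁) :=
  ((m'.comp m).transfer_unique hresB₁ _ fun Q b => by
    rw [RingHom.comp_apply, m'.evB_transfer, m.evB_transfer]
    rfl).symm

/-- two morphisms with the same action on the values and on the points have the same transfer -/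
theorem Mor.transfer_congr (m m' : Mor D₁ D₂)
    (hresB : ∀ b : B₁, ∃ a : W₁, b - D₁.c a ∈ D₁.mB)
    (hσ : m.σΩ = m'.σΩ) (hperm : m.perm = m'.perm) : m.transfer hresB = m'.transfer hresB :=
  m'.transfer_unique hresB _ fun Q b => by rw [m.evB_transfer, hσ, hperm]

end ExpData

end Fermat.Agent.FF3.Expand
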